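import Mathlib

/-!
# Row LT, tower T6, leaf T6.29.I1 `IwasawaIntRC` (helper673), part 1: the group `B⁺` in coordinates

OFF-MAIN, Mathlib only.  The group `B⁺` of the matrices
`e^{ζ/2} [[e^{r/2}, e^{r/2} x], [0, e^{-r/2}]]` in the coordinates `((ζ, r), x)`:

    ((ζ₀, r₀), x₀) * ((ζ, r), x) = ((ζ₀ + ζ, r₀ + r), e^{-r} x₀ + x).

It is a locally compact, second countable topological group, and the Lebesgue measure
`dζ dr dx` is a left Haar measure of it (`isHaar_volBP673`).
-/

set_option autoImplicit false

open MeasureTheory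

noncomputable section

namespace Fermat.Agent.LT.T6.H673

/-- The coordinates `((ζ, r), x)` of the group `B⁺`. -/
def BP673 : Type := (ℝ × ℝ) × ℝ

namespace BP673

/-- The element with the coordinates `((ζ, r), x)`. -/
def mk (ζ r x : ℝ) : BP673 := ((ζ, r), x)

/-- The coordinate `ζ`. -/
def zt (p : BP673) : ℝ := (show (ℝ × ℝ) × ℝ from p).1.1

/-- The coordinate `r`. -/
def rr (p : BP673) : ℝ := (show (ℝ × ℝ) × ℝ from p).1.2

/-- The coordinate `x`. -/
def xx (p : BP673) : ℝ := (show (ℝ × ℝ) × ℝ from p).2

@[ext] theorem ext {p q : BP673} (h1 : p.zt = q.zt) (h2 : p.rr = q.rr) (h3 : p.xx = q.xx) :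
    p = q :=
  Prod.ext (Prod.ext h1 h2) h3

@[simp] theorem zt_mk (ζ r x : ℝ) : (mk ζ r x).zt = ζ := rfl
@[simp] theorem rr_mk (ζ r x : ℝ) : (mk ζ r x).rr = r := rfl
@[simp] theorem xx_mk (ζ r x : ℝ) : (mk ζ r x).xx = x := rfl

theorem mk_eta (p : BP673) : mk p.zt p.rr p.xx = p := rfl

instance : Mul BP673 :=
  ⟨fun p q => mk (p.zt + q.zt) (p.rr + q.rr) (Real.exp (-q.rr) * p.xx + q.xx)⟩

instance : One BP673 := ⟨mk 0 0 0⟩

instance : Inv BP673 := ⟨fun p => mk (-p.zt) (-p.rr) (-(Real.exp p.rr * p.xx))⟩

@[simp] theorem zt_mul (p q : BP673) : (p * q).zt = p.zt + q.zt := rfl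
@[simp] theorem rr_mul (p q : BP673) : (p * q).rr = p.rr + q.rr := rfl
@[simp] theorem xx_mul (p q : BP673) : (p * q).xx = Real.exp (-q.rr) * p.xx + q.xx := rfl
@[simp] theorem zt_one : (1 : BP673).zt = 0 := rfl
@[simp] theorem rr_one : (1 : BP673).rr = 0 := rfl
@[simp] theorem xx_one : (1 : BP673).xx = 0 := rfl
@[simp] theorem zt_inv (p : BP673) : (p⁻¹).zt = -p.zt := rfl
@[simp] theorem rr_inv (p : BP673) : (p⁻¹).rr = -p.rr := rfl
@[simp] theorem xx_inv (p : BP673) : (p⁻¹).xx = -(Real.exp p.rr * p.xx) := rfl

instance : Group BP673 :=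
  Group.ofLeftAxioms
    (by
      intro p q s
      ext
      · simp [add_assoc]
      · simp [add_assoc]
      · simp only [xx_mul, rr_mul, neg_add, Real.exp_add]
        ring)
    (by
      intro p
      ext <;> simp)
    (by
      intro p
      ext
      · simp
      · simp
      · simp only [xx_mul, xx_inv, xx_one]
        rw [mul_neg, ← mul_assoc, ← Real.exp_add, neg_add_cancel, Real.exp_zero, one_mul,
          neg_add_cancel])

instance : TopologicalSpace BP673 := inferInstanceAs (TopologicalSpace ((ℝ × ℝ) × ℝ))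
instance : T2Space BP673 := inferInstanceAs (T2Space ((ℝ × ℝ) × ℝ))
instance : LocallyCompactSpace BP673 := inferInstanceAs (LocallyCompactSpace ((ℝ × ℝ) × ℝ))
instance : SecondCountableTopology BP673 :=
  inferInstanceAs (SecondCountableTopology ((ℝ × ℝ) × ℝ))
instance : MeasurableSpace BP673 := inferInstanceAs (MeasurableSpace ((ℝ × ℝ) × ℝ))
instance : BorelSpace BP673 := inferInstanceAs (BorelSpace ((ℝ × ℝ) × ℝ))

theorem continuous_zt : Continuous zt := continuous_fst.comp continuous_fst
theorem continuous_rr : Continuous rr := continuous_snd.comp continuous_fst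
theorem continuous_xx : Continuous xx := continuous_snd

theorem continuous_mk {X : Type*} [TopologicalSpace X] {f g h : X → ℝ} (hf : Continuous f)
    (hg : Continuous g) (hh : Continuous h) : Continuous fun t => mk (f t) (g t) (h t) :=
  (hf.prodMk hg).prodMk hh

theorem measurable_mk {X : Type*} [MeasurableSpace X] {f g h : X → ℝ} (hf : Measurable f)
    (hg : Measurable g) (hh : Measurable h) : Measurable fun t => mk (f t) (g t) (h t) :=
  (hf.prodMk hg).prodMk hh

instance : IsTopologicalGroup BP673 where
  continuous_mul := by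
    have h1 : Continuous fun pq : BP673 × BP673 => pq.1 := continuous_fst
    have h2 : Continuous fun pq : BP673 × BP673 => pq.2 := continuous_snd
    exact continuous_mk ((continuous_zt.comp h1).add (continuous_zt.comp h2))
      ((continuous_rr.comp h1).add (continuous_rr.comp h2))
      (((Real.continuous_exp.comp (continuous_rr.comp h2).neg).mul (continuous_xx.comp h1)).add
        (continuous_xx.comp h2))
  continuous_inv :=
    continuous_mk continuous_zt.neg continuous_rr.neg
      ((Real.continuous_exp.comp continuous_rr).mul continuous_xx).neg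

end BP673

/-- The Lebesgue measure `dζ dr dx` on `B⁺`. -/
def volBP673 : Measure BP673 := (volume : Measure ((ℝ × ℝ) × ℝ))

instance : IsFiniteMeasureOnCompacts volBP673 :=
  inferInstanceAs (IsFiniteMeasureOnCompacts (volume : Measure ((ℝ × ℝ) × ℝ)))

instance : Measure.IsOpenPosMeasure volBP673 :=
  inferInstanceAs (Measure.IsOpenPosMeasure (volume : Measure ((ℝ × ℝ) × ℝ)))

instance : SFinite volBP673 :=
  inferInstanceAs (SFinite (volume : Measure ((ℝ × ℝ) × ℝ)))

/-- Left translations of `B⁺` preserve the Lebesgue measure (translation and shear). -/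
theorem measurePreserving_mul_left673 (p : BP673) :
    MeasurePreserving (fun q : BP673 => p * q) volBP673 volBP673 := by
  have h1 : MeasurePreserving (fun q : ℝ × ℝ => (p.zt + q.1, p.rr + q.2))
      (volume : Measure (ℝ × ℝ)) (volume : Measure (ℝ × ℝ)) := by
    have := (measurePreserving_add_left (volume : Measure (ℝ × ℝ)) (p.zt, p.rr))
    exact this
  have h2 : Measurable (Function.uncurry fun (q : ℝ × ℝ) (x : ℝ) =>
      Real.exp (-q.2) * p.xx + x) := by
    unfold Function.uncurry
    fun_prop
  have h3 : ∀ᵐ q : ℝ × ℝ ∂(volume : Measure (ℝ × ℝ)),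
      Measure.map (fun x : ℝ => Real.exp (-q.2) * p.xx + x) (volume : Measure ℝ)
        = (volume : Measure ℝ) := by
    refine Filter.Eventually.of_forall fun q => ?_
    exact (measurePreserving_add_left (volume : Measure ℝ) (Real.exp (-q.2) * p.xx)).map_eq
  have h4 := MeasurePreserving.skew_product (μc := (volume : Measure ℝ))
    (μd := (volume : Measure ℝ)) h1 h2 h3
  exact h4

instance : Measure.IsMulLeftInvariant volBP673 :=
  ⟨fun p => (measurePreserving_mul_left673 p).map_eq⟩

instance isHaar_volBP673 : Measure.IsHaarMeasure volBP673 := {}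

end Fermat.Agent.LT.T6.H673

end
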