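import Mathlib
import Fermat.Agent.LT.T6.H830.HCSpec
import Fermat.Agent.LT.T6.H673.IwGroup

/-!
# Row LT, tower T6, leaf T6.29.I1 `IwasawaIntRC` (helper673), part 2: Iwasawa coordinates

OFF-MAIN.  The embedding `iota673 : B⁺ → GL₂(ℝ)`, `((ζ, r), x) ↦ bR ζ r x`, the Iwasawa
projection `proj673 : GL₂(ℝ) → B⁺` and the rotation part `kOf673`:

    proj673 (iota673 p) = p,      proj673 (iota673 p * g) = p * proj673 g   (det g > 0),
    g = iota673 (proj673 g) * kOf673 g   (det g > 0),     InSO2 (kOf673 g).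
-/

set_option autoImplicit false

open scoped Matrix
open MeasureTheory

noncomputable section

namespace Fermat.Agent.LT.T6.H673

open Fermat.Agent.LT.T6 Fermat.Agent.LT.T6.H830

/-- The embedding of `B⁺` in `GL₂(ℝ)`. -/
def iota673 (p : BP673) : GL (Fin 2) ℝ := bR p.zt p.rr p.xx

/-- `c² + d²` for `g = [[a, b], [c, d]]`. -/
def nrm673 (g : GL (Fin 2) ℝ) : ℝ :=
  (g : Matrix (Fin 2) (Fin 2) ℝ) 1 0 ^ 2 + (g : Matrix (Fin 2) (Fin 2) ℝ) 1 1 ^ 2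

/-- The Iwasawa projection `g = b k ↦ b` in coordinates (for `det g > 0`). -/
def proj673 (g : GL (Fin 2) ℝ) : BP673 :=
  BP673.mk (Real.log (g : Matrix (Fin 2) (Fin 2) ℝ).det)
    (Real.log (g : Matrix (Fin 2) (Fin 2) ℝ).det - Real.log (nrm673 g))
    (((g : Matrix (Fin 2) (Fin 2) ℝ) 0 0 * (g : Matrix (Fin 2) (Fin 2) ℝ) 1 0 +
        (g : Matrix (Fin 2) (Fin 2) ℝ) 0 1 * (g : Matrix (Fin 2) (Fin 2) ℝ) 1 1) /
      (g : Matrix (Fin 2) (Fin 2) ℝ).det)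

theorem det_eq673 (g : GL (Fin 2) ℝ) :
    (g : Matrix (Fin 2) (Fin 2) ℝ).det
      = (g : Matrix (Fin 2) (Fin 2) ℝ) 0 0 * (g : Matrix (Fin 2) (Fin 2) ℝ) 1 1 -
        (g : Matrix (Fin 2) (Fin 2) ℝ) 0 1 * (g : Matrix (Fin 2) (Fin 2) ℝ) 1 0 :=
  Matrix.det_fin_two _

theorem det_ne_zero673 (g : GL (Fin 2) ℝ) : (g : Matrix (Fin 2) (Fin 2) ℝ).det ≠ 0 :=
  ((Matrix.isUnit_iff_isUnit_det _).1 g.isUnit).ne_zero

theorem nrm_pos673 (g : GL (Fin 2) ℝ) : 0 < nrm673 g := by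
  have h := det_ne_zero673 g
  rw [det_eq673] at h
  unfold nrm673
  by_contra hneg
  have h0 : (g : Matrix (Fin 2) (Fin 2) ℝ) 1 0 ^ 2 + (g : Matrix (Fin 2) (Fin 2) ℝ) 1 1 ^ 2 = 0 :=
    le_antisymm (not_lt.1 hneg) (by positivity)
  have hc : (g : Matrix (Fin 2) (Fin 2) ℝ) 1 0 = 0 := by nlinarith [sq_nonneg ((g : Matrix (Fin 2) (Fin 2) ℝ) 1 0), sq_nonneg ((g : Matrix (Fin 2) (Fin 2) ℝ) 1 1)]
  have hd : (g : Matrix (Fin 2) (Fin 2) ℝ) 1 1 = 0 := by nlinarith [sq_nonneg ((g : Matrix (Fin 2) (Fin 2) ℝ) 1 0), sq_nonneg ((g : Matrix (Fin 2) (Fin 2) ℝ) 1 1)]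
  apply h
  rw [hc, hd]
  ring

/-! ## Entries -/

theorem iota_00 (p : BP673) :
    (iota673 p : Matrix (Fin 2) (Fin 2) ℝ) 0 0 = Real.exp ((p.zt + p.rr) / 2) := rfl

theorem iota_01 (p : BP673) :
    (iota673 p : Matrix (Fin 2) (Fin 2) ℝ) 0 1 = Real.exp ((p.zt + p.rr) / 2) * p.xx := rfl

theorem iota_10 (p : BP673) : (iota673 p : Matrix (Fin 2) (Fin 2) ℝ) 1 0 = 0 := rfl

theorem iota_11 (p : BP673) :
    (iota673 p : Matrix (Fin 2) (Fin 2) ℝ) 1 1 = Real.exp ((p.zt - p.rr) / 2) := rfl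

theorem det_iota673 (p : BP673) :
    (iota673 p : Matrix (Fin 2) (Fin 2) ℝ).det = Real.exp p.zt := by
  rw [det_eq673, iota_00, iota_01, iota_10, iota_11, mul_zero, sub_zero, ← Real.exp_add]
  congr 1
  ring

theorem det_iota_pos673 (p : BP673) : 0 < (iota673 p : Matrix (Fin 2) (Fin 2) ℝ).det := by
  rw [det_iota673]
  exact Real.exp_pos _

theorem nrm_iota673 (p : BP673) : nrm673 (iota673 p) = Real.exp (p.zt - p.rr) := by
  unfold nrm673
  rw [iota_10, iota_11, ← Real.exp_nat_mul]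
  simp only [ne_eq, OfNat.ofNat_ne_zero, not_false_eq_true, zero_pow, zero_add, Nat.cast_ofNat]
  congr 1
  ring

/-- `proj673 ∘ iota673 = id`. -/
theorem proj_iota673 (p : BP673) : proj673 (iota673 p) = p := by
  unfold proj673
  rw [det_iota673, nrm_iota673, Real.log_exp, Real.log_exp, iota_00, iota_01, iota_10, iota_11]
  apply BP673.ext
  · simp
  · simp
  · simp only [BP673.xx_mk, mul_zero, zero_add]
    rw [mul_right_comm, ← Real.exp_add]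
    have e : (p.zt + p.rr) / 2 + (p.zt - p.rr) / 2 = p.zt := by ring
    rw [e]
    have h := Real.exp_ne_zero p.zt
    field_simp

theorem mul_00 (g h : GL (Fin 2) ℝ) :
    ((g * h : GL (Fin 2) ℝ) : Matrix (Fin 2) (Fin 2) ℝ) 0 0
      = (g : Matrix (Fin 2) (Fin 2) ℝ) 0 0 * (h : Matrix (Fin 2) (Fin 2) ℝ) 0 0 +
        (g : Matrix (Fin 2) (Fin 2) ℝ) 0 1 * (h : Matrix (Fin 2) (Fin 2) ℝ) 1 0 := by
  rw [Units.val_mul, Matrix.mul_apply, Fin.sum_univ_two]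

theorem mul_01 (g h : GL (Fin 2) ℝ) :
    ((g * h : GL (Fin 2) ℝ) : Matrix (Fin 2) (Fin 2) ℝ) 0 1
      = (g : Matrix (Fin 2) (Fin 2) ℝ) 0 0 * (h : Matrix (Fin 2) (Fin 2) ℝ) 0 1 +
        (g : Matrix (Fin 2) (Fin 2) ℝ) 0 1 * (h : Matrix (Fin 2) (Fin 2) ℝ) 1 1 := by
  rw [Units.val_mul, Matrix.mul_apply, Fin.sum_univ_two]

theorem mul_10 (g h : GL (Fin 2) ℝ) :
    ((g * h : GL (Fin 2) ℝ) : Matrix (Fin 2) (Fin 2) ℝ) 1 0
      = (g : Matrix (Fin 2) (Fin 2) ℝ) 1 0 * (h : Matrix (Fin 2) (Fin 2) ℝ) 0 0 +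
        (g : Matrix (Fin 2) (Fin 2) ℝ) 1 1 * (h : Matrix (Fin 2) (Fin 2) ℝ) 1 0 := by
  rw [Units.val_mul, Matrix.mul_apply, Fin.sum_univ_two]

theorem mul_11 (g h : GL (Fin 2) ℝ) :
    ((g * h : GL (Fin 2) ℝ) : Matrix (Fin 2) (Fin 2) ℝ) 1 1
      = (g : Matrix (Fin 2) (Fin 2) ℝ) 1 0 * (h : Matrix (Fin 2) (Fin 2) ℝ) 0 1 +
        (g : Matrix (Fin 2) (Fin 2) ℝ) 1 1 * (h : Matrix (Fin 2) (Fin 2) ℝ) 1 1 := by
  rw [Units.val_mul, Matrix.mul_apply, Fin.sum_univ_two]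

theorem det_mul673 (g h : GL (Fin 2) ℝ) :
    ((g * h : GL (Fin 2) ℝ) : Matrix (Fin 2) (Fin 2) ℝ).det
      = (g : Matrix (Fin 2) (Fin 2) ℝ).det * (h : Matrix (Fin 2) (Fin 2) ℝ).det := by
  rw [Units.val_mul, Matrix.det_mul]

/-- Equivariance of the Iwasawa projection under `B⁺`. -/
theorem proj_mul673 (p : BP673) (g : GL (Fin 2) ℝ)
    (hg : 0 < (g : Matrix (Fin 2) (Fin 2) ℝ).det) :
    proj673 (iota673 p * g) = p * proj673 g := by
  have hN := nrm_pos673 g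
  have hD : Real.exp ((p.zt - p.rr) / 2) ^ 2 = Real.exp (p.zt - p.rr) := by
    rw [← Real.exp_nat_mul]
    congr 1
    push_cast
    ring
  have hAD : Real.exp ((p.zt + p.rr) / 2) * Real.exp ((p.zt - p.rr) / 2) = Real.exp p.zt := by
    rw [← Real.exp_add]
    congr 1
    ring
  have hnrm : nrm673 (iota673 p * g) = Real.exp (p.zt - p.rr) * nrm673 g := by
    unfold nrm673
    rw [mul_10, mul_11, iota_10, iota_11, ← hD]
    ring
  have hlogdet : Real.log ((iota673 p * g : GL (Fin 2) ℝ) : Matrix (Fin 2) (Fin 2) ℝ).det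
      = p.zt + Real.log (g : Matrix (Fin 2) (Fin 2) ℝ).det := by
    rw [det_mul673, det_iota673, Real.log_mul (Real.exp_ne_zero _) hg.ne', Real.log_exp]
  have hlognrm : Real.log (nrm673 (iota673 p * g)) = p.zt - p.rr + Real.log (nrm673 g) := by
    rw [hnrm, Real.log_mul (Real.exp_ne_zero _) hN.ne', Real.log_exp]
  apply BP673.ext
  · rw [BP673.zt_mul]
    show Real.log _ = p.zt + Real.log _
    exact hlogdet
  · rw [BP673.rr_mul]
    show Real.log _ - Real.log _ = p.rr + (Real.log _ - Real.log _)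
    rw [hlogdet, hlognrm]
    ring
  · rw [BP673.xx_mul]
    show _ / _ = Real.exp (-(Real.log _ - Real.log _)) * p.xx + _ / _
    rw [det_mul673, det_iota673, mul_00, mul_01, mul_10, mul_11, iota_00, iota_01, iota_10,
      iota_11, neg_sub, Real.exp_sub, Real.exp_log hN, Real.exp_log hg, ← hAD]
    unfold nrm673
    have h1 := Real.exp_pos ((p.zt + p.rr) / 2)
    have h2 := Real.exp_pos ((p.zt - p.rr) / 2)
    field_simp
    ring

/-! ## Real identities -/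

theorem aux_unit673 {c d s : ℝ} (hs : s ≠ 0) (hss : s * s = c ^ 2 + d ^ 2) :
    d / s * (d / s) + c / s * (c / s) = 1 := by
  have e : d / s * (d / s) + c / s * (c / s) = (c ^ 2 + d ^ 2) / (s * s) := by ring
  rw [e, hss, div_self]
  rw [← hss]
  exact mul_ne_zero hs hs

theorem aux_a673 {a b c d s D : ℝ} (hs : s ≠ 0) (hss : s * s = c ^ 2 + d ^ 2) (hD : D ≠ 0)
    (hdet : D = a * d - b * c) :
    a = D / s * (d / s) + D / s * ((a * c + b * d) / D) * (c / s) := by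
  have hN : c ^ 2 + d ^ 2 ≠ 0 := by
    rw [← hss]
    exact mul_ne_zero hs hs
  have hx : D * ((a * c + b * d) / D) = a * c + b * d := by field_simp
  have e : D / s * (d / s) + D / s * ((a * c + b * d) / D) * (c / s)
      = (D * d + (D * ((a * c + b * d) / D)) * c) / (s * s) := by ring
  rw [e, hx, hss, eq_div_iff hN, hdet]
  ring

theorem aux_b673 {a b c d s D : ℝ} (hs : s ≠ 0) (hss : s * s = c ^ 2 + d ^ 2) (hD : D ≠ 0)
    (hdet : D = a * d - b * c) :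
    b = D / s * (-(c / s)) + D / s * ((a * c + b * d) / D) * (d / s) := by
  have hN : c ^ 2 + d ^ 2 ≠ 0 := by
    rw [← hss]
    exact mul_ne_zero hs hs
  have hx : D * ((a * c + b * d) / D) = a * c + b * d := by field_simp
  have e : D / s * (-(c / s)) + D / s * ((a * c + b * d) / D) * (d / s)
      = (-(D * c) + (D * ((a * c + b * d) / D)) * d) / (s * s) := by ring
  rw [e, hx, hss, eq_div_iff hN, hdet]
  ring

/-! ## The rotation part -/

/-- The rotation part `k` of `g = b k`: `[[d, -c], [c, d]] / √(c² + d²)`. -/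
def kOf673 (g : GL (Fin 2) ℝ) : GL (Fin 2) ℝ :=
  Matrix.GeneralLinearGroup.mkOfDetNeZero
    !![(g : Matrix (Fin 2) (Fin 2) ℝ) 1 1 / Real.sqrt (nrm673 g),
        -((g : Matrix (Fin 2) (Fin 2) ℝ) 1 0 / Real.sqrt (nrm673 g));
      (g : Matrix (Fin 2) (Fin 2) ℝ) 1 0 / Real.sqrt (nrm673 g),
        (g : Matrix (Fin 2) (Fin 2) ℝ) 1 1 / Real.sqrt (nrm673 g)]
    (by
      rw [Matrix.det_fin_two_of]
      have hN := nrm_pos673 g
      have hs : 0 < Real.sqrt (nrm673 g) := Real.sqrt_pos.2 hN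
      have hss : Real.sqrt (nrm673 g) * Real.sqrt (nrm673 g)
          = (g : Matrix (Fin 2) (Fin 2) ℝ) 1 0 ^ 2 + (g : Matrix (Fin 2) (Fin 2) ℝ) 1 1 ^ 2 :=
        Real.mul_self_sqrt hN.le
      have key := aux_unit673 hs.ne' hss
      have e : (g : Matrix (Fin 2) (Fin 2) ℝ) 1 1 / Real.sqrt (nrm673 g) *
            ((g : Matrix (Fin 2) (Fin 2) ℝ) 1 1 / Real.sqrt (nrm673 g)) -
          -((g : Matrix (Fin 2) (Fin 2) ℝ) 1 0 / Real.sqrt (nrm673 g)) *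
            ((g : Matrix (Fin 2) (Fin 2) ℝ) 1 0 / Real.sqrt (nrm673 g)) = 1 := by
        linear_combination key
      rw [e]
      exact one_ne_zero)

theorem kOf_00 (g : GL (Fin 2) ℝ) :
    (kOf673 g : Matrix (Fin 2) (Fin 2) ℝ) 0 0
      = (g : Matrix (Fin 2) (Fin 2) ℝ) 1 1 / Real.sqrt (nrm673 g) := rfl

theorem kOf_01 (g : GL (Fin 2) ℝ) :
    (kOf673 g : Matrix (Fin 2) (Fin 2) ℝ) 0 1
      = -((g : Matrix (Fin 2) (Fin 2) ℝ) 1 0 / Real.sqrt (nrm673 g)) := rfl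

theorem kOf_10 (g : GL (Fin 2) ℝ) :
    (kOf673 g : Matrix (Fin 2) (Fin 2) ℝ) 1 0
      = (g : Matrix (Fin 2) (Fin 2) ℝ) 1 0 / Real.sqrt (nrm673 g) := rfl

theorem kOf_11 (g : GL (Fin 2) ℝ) :
    (kOf673 g : Matrix (Fin 2) (Fin 2) ℝ) 1 1
      = (g : Matrix (Fin 2) (Fin 2) ℝ) 1 1 / Real.sqrt (nrm673 g) := rfl

theorem sqrt_mul_self673 (g : GL (Fin 2) ℝ) :
    Real.sqrt (nrm673 g) * Real.sqrt (nrm673 g)
      = (g : Matrix (Fin 2) (Fin 2) ℝ) 1 0 ^ 2 + (g : Matrix (Fin 2) (Fin 2) ℝ) 1 1 ^ 2 :=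
  Real.mul_self_sqrt (nrm_pos673 g).le

theorem inSO2_kOf673 (g : GL (Fin 2) ℝ) : InSO2 (kOf673 g) := by
  have hN := nrm_pos673 g
  have hs : 0 < Real.sqrt (nrm673 g) := Real.sqrt_pos.2 hN
  have hss := sqrt_mul_self673 g
  have key := aux_unit673 hs.ne' hss
  constructor
  · ext i j
    rw [Matrix.mul_apply, Fin.sum_univ_two]
    simp only [Matrix.transpose_apply]
    fin_cases i <;> fin_cases j
    · show (kOf673 g : Matrix (Fin 2) (Fin 2) ℝ) 0 0 * (kOf673 g : Matrix (Fin 2) (Fin 2) ℝ) 0 0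
        + (kOf673 g : Matrix (Fin 2) (Fin 2) ℝ) 0 1 * (kOf673 g : Matrix (Fin 2) (Fin 2) ℝ) 0 1
        = (1 : Matrix (Fin 2) (Fin 2) ℝ) 0 0
      rw [kOf_00, kOf_01, Matrix.one_apply_eq]
      linear_combination key
    · show (kOf673 g : Matrix (Fin 2) (Fin 2) ℝ) 0 0 * (kOf673 g : Matrix (Fin 2) (Fin 2) ℝ) 1 0
        + (kOf673 g : Matrix (Fin 2) (Fin 2) ℝ) 0 1 * (kOf673 g : Matrix (Fin 2) (Fin 2) ℝ) 1 1
        = (1 : Matrix (Fin 2) (Fin 2) ℝ) 0 1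
      rw [kOf_00, kOf_01, kOf_10, kOf_11, Matrix.one_apply_ne (by decide)]
      ring
    · show (kOf673 g : Matrix (Fin 2) (Fin 2) ℝ) 1 0 * (kOf673 g : Matrix (Fin 2) (Fin 2) ℝ) 0 0
        + (kOf673 g : Matrix (Fin 2) (Fin 2) ℝ) 1 1 * (kOf673 g : Matrix (Fin 2) (Fin 2) ℝ) 0 1
        = (1 : Matrix (Fin 2) (Fin 2) ℝ) 1 0
      rw [kOf_00, kOf_01, kOf_10, kOf_11, Matrix.one_apply_ne (by decide)]
      ring
    · show (kOf673 g : Matrix (Fin 2) (Fin 2) ℝ) 1 0 * (kOf673 g : Matrix (Fin 2) (Fin 2) ℝ) 1 0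
        + (kOf673 g : Matrix (Fin 2) (Fin 2) ℝ) 1 1 * (kOf673 g : Matrix (Fin 2) (Fin 2) ℝ) 1 1
        = (1 : Matrix (Fin 2) (Fin 2) ℝ) 1 1
      rw [kOf_10, kOf_11, Matrix.one_apply_eq]
      linear_combination key
  · rw [det_eq673, kOf_00, kOf_01, kOf_10, kOf_11]
    linear_combination key

/-- **Iwasawa decomposition** of `g` with `det g > 0`. -/
theorem eq_iota_mul_kOf673 (g : GL (Fin 2) ℝ) (hg : 0 < (g : Matrix (Fin 2) (Fin 2) ℝ).det) :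
    g = iota673 (proj673 g) * kOf673 g := by
  have hN := nrm_pos673 g
  have hs : 0 < Real.sqrt (nrm673 g) := Real.sqrt_pos.2 hN
  have hss := sqrt_mul_self673 g
  have hhalf : Real.exp (Real.log (nrm673 g) / 2) = Real.sqrt (nrm673 g) := by
    rw [Real.exp_half, Real.exp_log hN]
  have hA : Real.exp (((proj673 g).zt + (proj673 g).rr) / 2)
      = (g : Matrix (Fin 2) (Fin 2) ℝ).det / Real.sqrt (nrm673 g) := by
    have e : ((proj673 g).zt + (proj673 g).rr) / 2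
        = Real.log (g : Matrix (Fin 2) (Fin 2) ℝ).det - Real.log (nrm673 g) / 2 := by
      show (Real.log _ + (Real.log _ - Real.log _)) / 2 = _
      ring
    rw [e, Real.exp_sub, Real.exp_log hg, hhalf]
  have hD : Real.exp (((proj673 g).zt - (proj673 g).rr) / 2) = Real.sqrt (nrm673 g) := by
    have e : ((proj673 g).zt - (proj673 g).rr) / 2 = Real.log (nrm673 g) / 2 := by
      show (Real.log _ - (Real.log _ - Real.log _)) / 2 = _
      ring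
    rw [e, hhalf]
  have hx : (proj673 g).xx
      = ((g : Matrix (Fin 2) (Fin 2) ℝ) 0 0 * (g : Matrix (Fin 2) (Fin 2) ℝ) 1 0 +
        (g : Matrix (Fin 2) (Fin 2) ℝ) 0 1 * (g : Matrix (Fin 2) (Fin 2) ℝ) 1 1) /
      (g : Matrix (Fin 2) (Fin 2) ℝ).det := rfl
  have hdet := det_eq673 g
  apply Units.ext
  ext i j
  fin_cases i <;> fin_cases j
  · show (g : Matrix (Fin 2) (Fin 2) ℝ) 0 0
      = ((iota673 (proj673 g) * kOf673 g : GL (Fin 2) ℝ) : Matrix (Fin 2) (Fin 2) ℝ) 0 0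
    rw [mul_00, iota_00, iota_01, kOf_00, kOf_10, hA, hx]
    exact aux_a673 hs.ne' hss hg.ne' hdet
  · show (g : Matrix (Fin 2) (Fin 2) ℝ) 0 1
      = ((iota673 (proj673 g) * kOf673 g : GL (Fin 2) ℝ) : Matrix (Fin 2) (Fin 2) ℝ) 0 1
    rw [mul_01, iota_00, iota_01, kOf_01, kOf_11, hA, hx]
    exact aux_b673 hs.ne' hss hg.ne' hdet
  · show (g : Matrix (Fin 2) (Fin 2) ℝ) 1 0
      = ((iota673 (proj673 g) * kOf673 g : GL (Fin 2) ℝ) : Matrix (Fin 2) (Fin 2) ℝ) 1 0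
    rw [mul_10, iota_10, iota_11, kOf_00, kOf_10, hD]
    field_simp
    ring
  · show (g : Matrix (Fin 2) (Fin 2) ℝ) 1 1
      = ((iota673 (proj673 g) * kOf673 g : GL (Fin 2) ℝ) : Matrix (Fin 2) (Fin 2) ℝ) 1 1
    rw [mul_11, iota_10, iota_11, kOf_01, kOf_11, hD]
    field_simp
    ring

end Fermat.Agent.LT.T6.H673

end
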