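import Mathlib
import Fermat.Agent.LT.T6.H830.HCSpec
import Fermat.Agent.LT.T6.H673.IwCoord

/-!
# Row LT, tower T6, leaf T6.29.I1 `IwasawaIntRC` (helper673), part 3: topology

OFF-MAIN.  Continuity of `iota673`, `proj673`, `rotR`; every element of `SO(2)` of the form
`kOf673 g` is a rotation `rotR θ`, `θ ∈ [-π, π]`; the set `{det > 0} ∩ proj673 ⁻¹' C` is contained
in a compact set for `C` compact.
-/

set_option autoImplicit false

open scoped Matrix
open MeasureTheory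

noncomputable section

namespace Fermat.Agent.LT.T6.H673

open Fermat.Agent.LT.T6 Fermat.Agent.LT.T6.H830

/-! ## Continuity -/

theorem continuous_entry673 (i j : Fin 2) :
    Continuous fun g : GL (Fin 2) ℝ => (g : Matrix (Fin 2) (Fin 2) ℝ) i j := by
  have h1 : Continuous fun g : GL (Fin 2) ℝ => (g : Matrix (Fin 2) (Fin 2) ℝ) :=
    Units.continuous_val
  exact Continuous.matrix_elem h1 i j

theorem continuous_det673 :
    Continuous fun g : GL (Fin 2) ℝ => (g : Matrix (Fin 2) (Fin 2) ℝ).det := by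
  have : (fun g : GL (Fin 2) ℝ => (g : Matrix (Fin 2) (Fin 2) ℝ).det)
      = fun g : GL (Fin 2) ℝ => (g : Matrix (Fin 2) (Fin 2) ℝ) 0 0 *
          (g : Matrix (Fin 2) (Fin 2) ℝ) 1 1 -
        (g : Matrix (Fin 2) (Fin 2) ℝ) 0 1 * (g : Matrix (Fin 2) (Fin 2) ℝ) 1 0 :=
    funext det_eq673
  rw [this]
  exact ((continuous_entry673 0 0).mul (continuous_entry673 1 1)).sub
    ((continuous_entry673 0 1).mul (continuous_entry673 1 0))

theorem continuous_nrm673 : Continuous nrm673 :=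
  ((continuous_entry673 1 0).pow 2).add ((continuous_entry673 1 1).pow 2)

/-- The Iwasawa projection is continuous (on all of `GL₂(ℝ)`). -/
theorem continuous_proj673 : Continuous proj673 := by
  refine BP673.continuous_mk ?_ ?_ ?_
  · exact continuous_det673.log det_ne_zero673
  · exact (continuous_det673.log det_ne_zero673).sub
      (continuous_nrm673.log fun g => (nrm_pos673 g).ne')
  · exact (((continuous_entry673 0 0).mul (continuous_entry673 1 0)).add
      ((continuous_entry673 0 1).mul (continuous_entry673 1 1))).div continuous_det673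
      det_ne_zero673

/-- A map to `GL₂(ℝ)` with continuous entries, whose inverse has continuous entries. -/
theorem continuous_gl_of_entries673 {X : Type*} [TopologicalSpace X] {f f' : X → GL (Fin 2) ℝ}
    (hf : ∀ i j, Continuous fun t => (f t : Matrix (Fin 2) (Fin 2) ℝ) i j)
    (hf' : ∀ i j, Continuous fun t => (f' t : Matrix (Fin 2) (Fin 2) ℝ) i j)
    (h : ∀ t, (f t)⁻¹ = f' t) : Continuous f := by
  rw [Units.continuous_iff]
  constructor
  · exact continuous_matrix hf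
  · have : (fun t => (((f t)⁻¹ : GL (Fin 2) ℝ) : Matrix (Fin 2) (Fin 2) ℝ))
        = fun t => (f' t : Matrix (Fin 2) (Fin 2) ℝ) := by
      funext t
      rw [h t]
    rw [this]
    exact continuous_matrix hf'

theorem iota_one673 : iota673 1 = 1 := by
  apply Units.ext
  ext i j
  fin_cases i <;> fin_cases j
  · show (iota673 1 : Matrix (Fin 2) (Fin 2) ℝ) 0 0 = (1 : Matrix (Fin 2) (Fin 2) ℝ) 0 0
    rw [iota_00, Matrix.one_apply_eq]
    simp
  · show (iota673 1 : Matrix (Fin 2) (Fin 2) ℝ) 0 1 = (1 : Matrix (Fin 2) (Fin 2) ℝ) 0 1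
    rw [iota_01, Matrix.one_apply_ne (by decide)]
    simp
  · show (iota673 1 : Matrix (Fin 2) (Fin 2) ℝ) 1 0 = (1 : Matrix (Fin 2) (Fin 2) ℝ) 1 0
    rw [iota_10, Matrix.one_apply_ne (by decide)]
  · show (iota673 1 : Matrix (Fin 2) (Fin 2) ℝ) 1 1 = (1 : Matrix (Fin 2) (Fin 2) ℝ) 1 1
    rw [iota_11, Matrix.one_apply_eq]
    simp

theorem iota_mul673 (p q : BP673) : iota673 (p * q) = iota673 p * iota673 q := by
  apply Units.ext
  ext i j
  fin_cases i <;> fin_cases j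
  · show (iota673 (p * q) : Matrix (Fin 2) (Fin 2) ℝ) 0 0
      = ((iota673 p * iota673 q : GL (Fin 2) ℝ) : Matrix (Fin 2) (Fin 2) ℝ) 0 0
    rw [mul_00, iota_00, iota_00, iota_00, iota_10, mul_zero, add_zero, ← Real.exp_add,
      BP673.zt_mul, BP673.rr_mul]
    congr 1
    ring
  · show (iota673 (p * q) : Matrix (Fin 2) (Fin 2) ℝ) 0 1
      = ((iota673 p * iota673 q : GL (Fin 2) ℝ) : Matrix (Fin 2) (Fin 2) ℝ) 0 1
    rw [mul_01, iota_01, iota_00, iota_01, iota_01, iota_11, BP673.zt_mul, BP673.rr_mul,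
      BP673.xx_mul]
    have e1 : Real.exp ((p.zt + q.zt + (p.rr + q.rr)) / 2)
        = Real.exp ((p.zt + p.rr) / 2) * Real.exp ((q.zt + q.rr) / 2) := by
      rw [← Real.exp_add]
      congr 1
      ring
    have e2 : Real.exp ((q.zt - q.rr) / 2)
        = Real.exp ((q.zt + q.rr) / 2) * Real.exp (-q.rr) := by
      rw [← Real.exp_add]
      congr 1
      ring
    rw [e1, e2]
    ring
  · show (iota673 (p * q) : Matrix (Fin 2) (Fin 2) ℝ) 1 0
      = ((iota673 p * iota673 q : GL (Fin 2) ℝ) : Matrix (Fin 2) (Fin 2) ℝ) 1 0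
    rw [mul_10, iota_10, iota_10, iota_10]
    ring
  · show (iota673 (p * q) : Matrix (Fin 2) (Fin 2) ℝ) 1 1
      = ((iota673 p * iota673 q : GL (Fin 2) ℝ) : Matrix (Fin 2) (Fin 2) ℝ) 1 1
    rw [mul_11, iota_10, iota_11, iota_11, iota_11, zero_mul, zero_add, ← Real.exp_add,
      BP673.zt_mul, BP673.rr_mul]
    congr 1
    ring

theorem iota_inv673 (p : BP673) : (iota673 p)⁻¹ = iota673 p⁻¹ := by
  rw [inv_eq_iff_eq_inv, eq_inv_iff_mul_eq_one, ← iota_mul673, mul_inv_cancel, iota_one673]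

theorem continuous_iota_entry673 (i j : Fin 2) :
    Continuous fun p : BP673 => (iota673 p : Matrix (Fin 2) (Fin 2) ℝ) i j := by
  have hA : Continuous fun p : BP673 => Real.exp ((p.zt + p.rr) / 2) :=
    Real.continuous_exp.comp ((BP673.continuous_zt.add BP673.continuous_rr).div_const 2)
  have hD : Continuous fun p : BP673 => Real.exp ((p.zt - p.rr) / 2) :=
    Real.continuous_exp.comp ((BP673.continuous_zt.sub BP673.continuous_rr).div_const 2)
  fin_cases i <;> fin_cases j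
  · exact hA
  · exact hA.mul BP673.continuous_xx
  · exact continuous_const
  · exact hD

/-- The embedding of `B⁺` is continuous. -/
theorem continuous_iota673 : Continuous iota673 :=
  continuous_gl_of_entries673 (f' := fun p => iota673 p⁻¹) continuous_iota_entry673
    (fun i j => (continuous_iota_entry673 i j).comp continuous_inv) iota_inv673

/-- The embedding of `B⁺` is a closed embedding. -/
theorem isClosedEmbedding_iota673 : Topology.IsClosedEmbedding iota673 :=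
  Function.LeftInverse.isClosedEmbedding proj_iota673 continuous_proj673 continuous_iota673

/-! ## Rotations -/

theorem rotR_00 (θ : ℝ) : (rotR θ : Matrix (Fin 2) (Fin 2) ℝ) 0 0 = Real.cos θ := rfl
theorem rotR_01 (θ : ℝ) : (rotR θ : Matrix (Fin 2) (Fin 2) ℝ) 0 1 = -Real.sin θ := rfl
theorem rotR_10 (θ : ℝ) : (rotR θ : Matrix (Fin 2) (Fin 2) ℝ) 1 0 = Real.sin θ := rfl
theorem rotR_11 (θ : ℝ) : (rotR θ : Matrix (Fin 2) (Fin 2) ℝ) 1 1 = Real.cos θ := rfl

theorem rotR_mul_neg673 (θ : ℝ) : rotR θ * rotR (-θ) = 1 := by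
  have h := Real.cos_sq_add_sin_sq θ
  apply Units.ext
  ext i j
  fin_cases i <;> fin_cases j
  · show ((rotR θ * rotR (-θ) : GL (Fin 2) ℝ) : Matrix (Fin 2) (Fin 2) ℝ) 0 0
      = (1 : Matrix (Fin 2) (Fin 2) ℝ) 0 0
    rw [mul_00, rotR_00, rotR_00, rotR_01, rotR_10, Matrix.one_apply_eq, Real.cos_neg,
      Real.sin_neg]
    linear_combination h
  · show ((rotR θ * rotR (-θ) : GL (Fin 2) ℝ) : Matrix (Fin 2) (Fin 2) ℝ) 0 1
      = (1 : Matrix (Fin 2) (Fin 2) ℝ) 0 1
    rw [mul_01, rotR_00, rotR_01, rotR_01, rotR_11, Matrix.one_apply_ne (by decide),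
      Real.cos_neg, Real.sin_neg]
    ring
  · show ((rotR θ * rotR (-θ) : GL (Fin 2) ℝ) : Matrix (Fin 2) (Fin 2) ℝ) 1 0
      = (1 : Matrix (Fin 2) (Fin 2) ℝ) 1 0
    rw [mul_10, rotR_10, rotR_00, rotR_11, rotR_10, Matrix.one_apply_ne (by decide),
      Real.cos_neg, Real.sin_neg]
    ring
  · show ((rotR θ * rotR (-θ) : GL (Fin 2) ℝ) : Matrix (Fin 2) (Fin 2) ℝ) 1 1
      = (1 : Matrix (Fin 2) (Fin 2) ℝ) 1 1
    rw [mul_11, rotR_10, rotR_01, rotR_11, rotR_11, Matrix.one_apply_eq, Real.cos_neg,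
      Real.sin_neg]
    linear_combination h

theorem rotR_inv673 (θ : ℝ) : (rotR θ)⁻¹ = rotR (-θ) :=
  inv_eq_of_mul_eq_one_right (rotR_mul_neg673 θ)

theorem continuous_rotR_entry673 (i j : Fin 2) :
    Continuous fun θ : ℝ => (rotR θ : Matrix (Fin 2) (Fin 2) ℝ) i j := by
  fin_cases i <;> fin_cases j
  · exact Real.continuous_cos
  · exact Real.continuous_sin.neg
  · exact Real.continuous_sin
  · exact Real.continuous_cos

theorem continuous_rotR673 : Continuous rotR :=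
  continuous_gl_of_entries673 (f' := fun θ => rotR (-θ)) continuous_rotR_entry673
    (fun i j => (continuous_rotR_entry673 i j).comp continuous_neg) rotR_inv673

/-- A point of the unit circle has an angle in `[-π, π]`. -/
theorem exists_angle673 {u v : ℝ} (h : u * u + v * v = 1) :
    ∃ θ ∈ Set.Icc (-Real.pi) Real.pi, Real.cos θ = u ∧ Real.sin θ = v := by
  have hn : ‖(⟨u, v⟩ : ℂ)‖ = 1 := by
    have h1 : ‖(⟨u, v⟩ : ℂ)‖ ^ 2 = 1 := by
      rw [Complex.sq_norm, Complex.normSq_mk]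
      exact h
    have h2 : (0 : ℝ) ≤ ‖(⟨u, v⟩ : ℂ)‖ := norm_nonneg _
    nlinarith [h1, h2]
  have hz : (⟨u, v⟩ : ℂ) ≠ 0 := by
    intro h0
    rw [h0, norm_zero] at hn
    exact zero_ne_one hn
  refine ⟨Complex.arg ⟨u, v⟩, ⟨(Complex.neg_pi_lt_arg _).le, Complex.arg_le_pi _⟩, ?_, ?_⟩
  · rw [Complex.cos_arg hz, hn, div_one]
  · rw [Complex.sin_arg, hn, div_one]

/-- The rotation part of `g` is a rotation. -/
theorem exists_kOf_eq_rotR673 (g : GL (Fin 2) ℝ) :
    ∃ θ ∈ Set.Icc (-Real.pi) Real.pi, kOf673 g = rotR θ := by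
  have hN := nrm_pos673 g
  have hs : 0 < Real.sqrt (nrm673 g) := Real.sqrt_pos.2 hN
  have key := aux_unit673 hs.ne' (sqrt_mul_self673 g)
  obtain ⟨θ, hθ, hc, hsn⟩ := exists_angle673 key
  refine ⟨θ, hθ, ?_⟩
  apply Units.ext
  ext i j
  fin_cases i <;> fin_cases j
  · show (kOf673 g : Matrix (Fin 2) (Fin 2) ℝ) 0 0 = (rotR θ : Matrix (Fin 2) (Fin 2) ℝ) 0 0
    rw [kOf_00, rotR_00, hc]
  · show (kOf673 g : Matrix (Fin 2) (Fin 2) ℝ) 0 1 = (rotR θ : Matrix (Fin 2) (Fin 2) ℝ) 0 1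
    rw [kOf_01, rotR_01, hsn]
  · show (kOf673 g : Matrix (Fin 2) (Fin 2) ℝ) 1 0 = (rotR θ : Matrix (Fin 2) (Fin 2) ℝ) 1 0
    rw [kOf_10, rotR_10, hsn]
  · show (kOf673 g : Matrix (Fin 2) (Fin 2) ℝ) 1 1 = (rotR θ : Matrix (Fin 2) (Fin 2) ℝ) 1 1
    rw [kOf_11, rotR_11, hc]

/-! ## The positive component -/

/-- `GL₂(ℝ)⁺`. -/
def gPos673 : Set (GL (Fin 2) ℝ) := {g | 0 < (g : Matrix (Fin 2) (Fin 2) ℝ).det}

theorem isOpen_gPos673 : IsOpen gPos673 :=
  isOpen_lt continuous_const continuous_det673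

theorem one_mem_gPos673 : (1 : GL (Fin 2) ℝ) ∈ gPos673 := by
  show 0 < ((1 : GL (Fin 2) ℝ) : Matrix (Fin 2) (Fin 2) ℝ).det
  rw [Units.val_one, Matrix.det_one]
  exact one_pos

theorem iota_mul_mem_gPos673 (p : BP673) (g : GL (Fin 2) ℝ) :
    iota673 p * g ∈ gPos673 ↔ g ∈ gPos673 := by
  show 0 < ((iota673 p * g : GL (Fin 2) ℝ) : Matrix (Fin 2) (Fin 2) ℝ).det ↔
    0 < (g : Matrix (Fin 2) (Fin 2) ℝ).det
  rw [det_mul673, det_iota673]
  exact mul_pos_iff_of_pos_left (Real.exp_pos _)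

/-- `{det > 0} ∩ proj673 ⁻¹' C` lies in a compact set if `C` is compact. -/
theorem exists_compact_superset673 {C : Set BP673} (hC : IsCompact C) :
    ∃ T : Set (GL (Fin 2) ℝ), IsCompact T ∧ proj673 ⁻¹' C ∩ gPos673 ⊆ T := by
  refine ⟨(fun x : BP673 × ℝ => iota673 x.1 * rotR x.2) '' (C ×ˢ Set.Icc (-Real.pi) Real.pi),
    ?_, ?_⟩
  · refine (hC.prod isCompact_Icc).image ?_
    exact (continuous_iota673.comp continuous_fst).mul (continuous_rotR673.comp continuous_snd)
  · rintro g ⟨hgC, hg⟩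
    obtain ⟨θ, hθ, hk⟩ := exists_kOf_eq_rotR673 g
    refine ⟨(proj673 g, θ), ⟨hgC, hθ⟩, ?_⟩
    show iota673 (proj673 g) * rotR θ = g
    rw [← hk]
    exact (eq_iota_mul_kOf673 g hg).symm

end Fermat.Agent.LT.T6.H673

end
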