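import Mathlib
import Fermat.Agent.LT.T6.H830.HCSpec
import Fermat.Agent.LT.T6.H673.IwTop

/-!
# Row LT, tower T6, leaf T6.29.I1 `IwasawaIntRC` (helper673), part 4: the integration formula

OFF-MAIN.  Spec: `LT/T6/H830/HCSpec.lean` (helper830, sha256 c3e7d846), byte-identical copy,
over `LT/T6/SpecArch.lean` (003240b2) and `LT/T6/Spec.lean` v3 (8c5f2ae7).

    iwasawaIntRC673 : H830.IwasawaIntRC

Proof.  The push-forward `ν` of `μ|_{det > 0}` under the Iwasawa projection
`proj673 : GL₂(ℝ) → B⁺` is a left invariant measure of the group `B⁺`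
(`proj673 (b g) = b * proj673 g`), finite on compact sets (`{det > 0} ∩ proj673 ⁻¹' C` lies in
the compact set `C · SO(2)`), so `ν = c · dζ dr dx` by the uniqueness of the Haar measure of the
second countable locally compact group `B⁺`; `c ≠ 0` since `ν ≠ 0`.  A right
`SO(2)`-invariant `F` supported in `det > 0` is `F ∘ iota673 ∘ proj673` there; Fubini.
-/

set_option autoImplicit false

open scoped Matrix
open MeasureTheory

noncomputable section

namespace Fermat.Agent.LT.T6.H673

open Fermat.Agent.LT.T6 Fermat.Agent.LT.T6.H830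

/-- The Borel `σ`-algebra of `GL₂(ℝ)` (LOCAL instance of this file). -/
local instance borelGL673 : MeasurableSpace (GL (Fin 2) ℝ) := borel _

local instance borelSpaceGL673 : BorelSpace (GL (Fin 2) ℝ) := ⟨rfl⟩

theorem measurable_proj673 : Measurable proj673 := continuous_proj673.measurable

theorem measurableSet_gPos673 : MeasurableSet gPos673 := isOpen_gPos673.measurableSet

/-- The push-forward of `μ|_{GL₂(ℝ)⁺}` to `B⁺`. -/
def pushBP673 (μ : Measure (GL (Fin 2) ℝ)) : Measure BP673 :=
  Measure.map proj673 (μ.restrict gPos673)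

theorem pushBP_apply673 (μ : Measure (GL (Fin 2) ℝ)) {s : Set BP673} (hs : MeasurableSet s) :
    pushBP673 μ s = μ (proj673 ⁻¹' s ∩ gPos673) := by
  unfold pushBP673
  rw [Measure.map_apply measurable_proj673 hs,
    Measure.restrict_apply (measurable_proj673 hs)]

/-- `ν` is left invariant. -/
theorem isMulLeftInvariant_pushBP673 (μ : Measure (GL (Fin 2) ℝ)) [μ.IsMulLeftInvariant] :
    (pushBP673 μ).IsMulLeftInvariant := by
  refine ⟨fun p => ?_⟩
  have hL : Measurable fun g : GL (Fin 2) ℝ => iota673 p * g :=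
    (continuous_const_mul (iota673 p)).measurable
  have hM : Measurable fun q : BP673 => p * q := (continuous_const_mul p).measurable
  have h1 : Measure.map (fun g : GL (Fin 2) ℝ => iota673 p * g) (μ.restrict gPos673)
      = μ.restrict gPos673 := by
    have e : (fun g : GL (Fin 2) ℝ => iota673 p * g) ⁻¹' gPos673 = gPos673 := by
      ext g
      exact iota_mul_mem_gPos673 p g
    have h2 := Measure.restrict_map hL measurableSet_gPos673 (μ := μ)
    rw [e, map_mul_left_eq_self] at h2
    exact h2.symm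
  unfold pushBP673
  rw [Measure.map_map hM measurable_proj673]
  have h3 : Measure.map ((fun q : BP673 => p * q) ∘ proj673) (μ.restrict gPos673)
      = Measure.map (proj673 ∘ fun g : GL (Fin 2) ℝ => iota673 p * g) (μ.restrict gPos673) := by
    apply Measure.map_congr
    rw [Filter.EventuallyEq, ae_restrict_iff' measurableSet_gPos673]
    exact Filter.Eventually.of_forall fun g hg => (proj_mul673 p g hg).symm
  rw [h3, ← Measure.map_map measurable_proj673 hL, h1]

/-- `ν` is finite on compact sets. -/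
theorem isFiniteMeasureOnCompacts_pushBP673 (μ : Measure (GL (Fin 2) ℝ))
    [IsFiniteMeasureOnCompacts μ] : IsFiniteMeasureOnCompacts (pushBP673 μ) := by
  refine ⟨fun C hC => ?_⟩
  obtain ⟨T, hT, hsub⟩ := exists_compact_superset673 hC
  rw [pushBP_apply673 μ hC.measurableSet]
  exact lt_of_le_of_lt (measure_mono hsub) hT.measure_lt_top

theorem pushBP_univ673 (μ : Measure (GL (Fin 2) ℝ)) :
    pushBP673 μ Set.univ = μ gPos673 := by
  rw [pushBP_apply673 μ MeasurableSet.univ, Set.preimage_univ, Set.univ_inter]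

/-- A right `SO(2)`-invariant function is determined on `det > 0` by its restriction to `B⁺`. -/
theorem eq_comp_proj673 {F : GL (Fin 2) ℝ → ℂ}
    (hFK : ∀ k g : GL (Fin 2) ℝ, InSO2 k → F (g * k) = F g) {g : GL (Fin 2) ℝ}
    (hg : g ∈ gPos673) : F g = F (iota673 (proj673 g)) := by
  have h := eq_iota_mul_kOf673 g hg
  calc F g = F (iota673 (proj673 g) * kOf673 g) := by rw [← h]
    _ = F (iota673 (proj673 g)) := hFK _ _ (inSO2_kOf673 g)

/-- Fubini in the coordinates of `B⁺`. -/
theorem integral_volBP673 {f : BP673 → ℂ} (hf : Continuous f) (hfs : HasCompactSupport f) :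
    ∫ p, f p ∂volBP673 = ∫ ζ : ℝ, ∫ r : ℝ, ∫ x : ℝ, f (BP673.mk ζ r x) := by
  have hint : Integrable f volBP673 := hf.integrable_of_hasCompactSupport hfs
  have hint' : Integrable (fun p : (ℝ × ℝ) × ℝ => f p)
      (((volume : Measure ℝ).prod (volume : Measure ℝ)).prod (volume : Measure ℝ)) := hint
  have h1 : ∫ p, f p ∂volBP673
      = ∫ q : ℝ × ℝ, (∫ x : ℝ, f (q, x)) ∂((volume : Measure ℝ).prod (volume : Measure ℝ)) :=
    integral_prod (fun p : (ℝ × ℝ) × ℝ => f p) hint'
  have h2 : Integrable (fun q : ℝ × ℝ => ∫ x : ℝ, f (q, x))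
      ((volume : Measure ℝ).prod (volume : Measure ℝ)) := hint'.integral_prod_left
  rw [h1, integral_prod _ h2]
  rfl

/-- **T6.29.I1, the Iwasawa integration formula on `GL₂(ℝ)`** (`H830.IwasawaIntRC`). -/
theorem iwasawaIntRC673 : IwasawaIntRC := by
  intro μ hμ
  have hμ' := hμ
  have h1 : (pushBP673 μ).IsMulLeftInvariant := isMulLeftInvariant_pushBP673 μ
  have h2 : IsFiniteMeasureOnCompacts (pushBP673 μ) := isFiniteMeasureOnCompacts_pushBP673 μ
  have hν : pushBP673 μ = Measure.haarScalarFactor (pushBP673 μ) volBP673 • volBP673 :=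
    Measure.isMulLeftInvariant_eq_smul (pushBP673 μ) volBP673
  have hc0 : Measure.haarScalarFactor (pushBP673 μ) volBP673 ≠ 0 := by
    intro h0
    have h3 : pushBP673 μ Set.univ = 0 := by
      rw [hν, h0, zero_smul]
      rfl
    rw [pushBP_univ673] at h3
    exact (isOpen_gPos673.measure_pos μ ⟨1, one_mem_gPos673⟩).ne' h3
  refine ⟨(Measure.haarScalarFactor (pushBP673 μ) volBP673 : ℝ),
    NNReal.coe_pos.2 (pos_iff_ne_zero.2 hc0), ?_⟩
  intro F hF hFs hFpos hFK
  have hzero : ∀ g : GL (Fin 2) ℝ, g ∉ gPos673 → F g = 0 := by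
    intro g hg
    by_contra h
    exact hg (hFpos g h)
  have hcont : Continuous fun p : BP673 => F (iota673 p) := hF.comp continuous_iota673
  have hsupp : HasCompactSupport fun p : BP673 => F (iota673 p) :=
    hFs.comp_isClosedEmbedding isClosedEmbedding_iota673
  calc ∫ g, F g ∂μ = ∫ g in gPos673, F g ∂μ :=
        (setIntegral_eq_integral_of_forall_compl_eq_zero hzero).symm
    _ = ∫ g in gPos673, F (iota673 (proj673 g)) ∂μ :=
        setIntegral_congr_fun measurableSet_gPos673 fun g hg => eq_comp_proj673 hFK hg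
    _ = ∫ p, F (iota673 p) ∂(pushBP673 μ) :=
        (integral_map measurable_proj673.aemeasurable hcont.aestronglyMeasurable).symm
    _ = ∫ p, F (iota673 p) ∂(Measure.haarScalarFactor (pushBP673 μ) volBP673 • volBP673) := by
        rw [← hν]
    _ = Measure.haarScalarFactor (pushBP673 μ) volBP673 • ∫ p, F (iota673 p) ∂volBP673 :=
        integral_smul_nnreal_measure _ _
    _ = ((Measure.haarScalarFactor (pushBP673 μ) volBP673 : ℝ) : ℂ) *
          ∫ ζ : ℝ, ∫ r : ℝ, ∫ x : ℝ, F (bR ζ r x) := by
        rw [integral_volBP673 hcont hsupp, NNReal.smul_def, Complex.real_smul]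
        rfl

end Fermat.Agent.LT.T6.H673

end
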